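/-
P-FF row 673 (FF-F5), helper65: the coefficient ring is reduced.

`coeffReduced : Fermat.Agent.H14.FFF.CoeffReducedStatement`.

`𝕋` reduced and finite over `ℤ`, `𝒪` a domain of characteristic zero, `T` a finite free
`𝒪`-algebra generated by the image of `π : 𝕋 → T`.  Then `T` is reduced.

Proof.  (1) Every `y ∈ 𝕋` is killed, up to `ℤ`-torsion, by an integer polynomial `G` whose image
in `ℚ[X]` is separable (radical of the minimal polynomial, denominators cleared, `𝕋` reduced).
(2) `T` acts faithfully on `K ^ ι`, `K = Frac 𝒪`, by left multiplication matrices; the operators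
of `π y` are semisimple by (1); commuting semisimple operators over a perfect field form a ring,
so every element of `T` acts semisimply.  (3) A nilpotent semisimple operator is zero.
-/
import Mathlib
import Fermat.Agent.H14.FFF.Interfaces

set_option autoImplicit false
set_option linter.style.haveILetI false

namespace Fermat.Agent.H65

open Polynomial

/-- Step 1: every element of a reduced ring which is finite over `ℤ` is killed, up to
`ℤ`-torsion, by an integer polynomial whose image over `ℚ` is separable. -/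
theorem cr_exists_separable (𝕋 : Type*) [CommRing 𝕋] [IsReduced 𝕋] [Module.Finite ℤ 𝕋] (y : 𝕋) :
    ∃ (G : ℤ[X]) (d : ℤ), d ≠ 0 ∧ (G.map (Int.castRingHom ℚ)).Separable ∧
      d • aeval y G = 0 := by
  have hy : IsIntegral ℤ y := IsIntegral.of_finite ℤ y
  have hfm : (minpoly ℤ y).Monic := minpoly.monic hy
  have hfQ0 : (minpoly ℤ y).map (Int.castRingHom ℚ) ≠ 0 := (hfm.map _).ne_zero
  have hr : Squarefree (UniqueFactorizationMonoid.radical
      ((minpoly ℤ y).map (Int.castRingHom ℚ))) := UniqueFactorizationMonoid.squarefree_radical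
  obtain ⟨e, q, hq⟩ := UniqueFactorizationMonoid.exists_dvd_radical_self_pow hfQ0
  obtain ⟨d, hd, hG⟩ := IsLocalization.integerNormalization_spec (nonZeroDivisors ℤ)
    (UniqueFactorizationMonoid.radical ((minpoly ℤ y).map (Int.castRingHom ℚ)))
  obtain ⟨d', hd', hQ⟩ := IsLocalization.integerNormalization_spec (nonZeroDivisors ℤ) q
  have hd0 : d ≠ 0 := nonZeroDivisors.ne_zero hd
  have hd'0 : d' ≠ 0 := nonZeroDivisors.ne_zero hd'
  set r := UniqueFactorizationMonoid.radical ((minpoly ℤ y).map (Int.castRingHom ℚ)) with hrdef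
  set G := IsLocalization.integerNormalization (nonZeroDivisors ℤ) r with hGdef
  set Q := IsLocalization.integerNormalization (nonZeroDivisors ℤ) q with hQdef
  have hG' : G.map (Int.castRingHom ℚ) = C (d : ℚ) * r := by
    have : G.map (algebraMap ℤ ℚ) = d • r := hG
    rw [algebraMap_int_eq] at this
    rw [this, zsmul_eq_mul, ← map_intCast (C : ℚ →+* ℚ[X])]
  have hQ' : Q.map (Int.castRingHom ℚ) = C (d' : ℚ) * q := by
    have : Q.map (algebraMap ℤ ℚ) = d' • q := hQ
    rw [algebraMap_int_eq] at this
    rw [this, zsmul_eq_mul, ← map_intCast (C : ℚ →+* ℚ[X])]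
  -- the identity in `ℤ[X]`
  have hid : C d' * G ^ e = C (d ^ e) * (minpoly ℤ y * Q) := by
    apply Polynomial.map_injective (Int.castRingHom ℚ) Int.cast_injective
    rw [Polynomial.map_mul, Polynomial.map_pow, Polynomial.map_C, Polynomial.map_mul,
      Polynomial.map_C, Polynomial.map_mul, hG', hQ', mul_pow, hq]
    simp only [eq_intCast, map_pow]
    ring
  have hev := congrArg (aeval y) hid
  simp only [map_mul, map_pow, aeval_C, minpoly.aeval, zero_mul, mul_zero] at hev
  -- nilpotency
  have hnil : (d' • aeval y G) ^ (e + 1) = 0 := by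
    have h1 : d' • aeval y G = algebraMap ℤ 𝕋 d' * aeval y G := by
      rw [Algebra.smul_def]
    rw [h1, mul_pow, pow_succ, pow_succ]
    calc algebraMap ℤ 𝕋 d' ^ e * algebraMap ℤ 𝕋 d' * (aeval y G ^ e * aeval y G)
        = algebraMap ℤ 𝕋 d' ^ e * aeval y G * (algebraMap ℤ 𝕋 d' * aeval y G ^ e) := by ring
      _ = 0 := by rw [hev, mul_zero]
  refine ⟨G, d', hd'0, ?_, IsReduced.eq_zero _ ⟨e + 1, hnil⟩⟩
  rw [hG']
  refine Separable.unit_mul ?_ (PerfectField.separable_iff_squarefree.mpr hr)
  rw [Polynomial.isUnit_C]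
  exact isUnit_iff_ne_zero.mpr (Int.cast_ne_zero.mpr hd0)

/-- **FF-F5.** The coefficient ring is reduced. -/
theorem coeffReduced : Fermat.Agent.H14.FFF.CoeffReducedStatement := by
  intro 𝕋 _ _ _ 𝒪 _ _ _ T _ _ _ _ π hπ
  classical
  -- the faithful action of `T` on `K ^ ι`
  let Λ : T →ₐ[𝒪] Module.End (FractionRing 𝒪) (Module.Free.ChooseBasisIndex 𝒪 T → FractionRing 𝒪) :=
    (((Matrix.toLinAlgEquiv' :
        Matrix (Module.Free.ChooseBasisIndex 𝒪 T) (Module.Free.ChooseBasisIndex 𝒪 T)
          (FractionRing 𝒪) ≃ₐ[FractionRing 𝒪] _).toAlgHom.restrictScalars 𝒪).comp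
      ((Algebra.ofId 𝒪 (FractionRing 𝒪)).mapMatrix)).comp
      (Algebra.leftMulMatrix (Module.Free.chooseBasis 𝒪 T))
  have hΛinj : Function.Injective Λ := by
    intro x x' h
    apply Algebra.leftMulMatrix_injective (Module.Free.chooseBasis 𝒪 T)
    have h1 := (Matrix.toLinAlgEquiv' :
        Matrix (Module.Free.ChooseBasisIndex 𝒪 T) (Module.Free.ChooseBasisIndex 𝒪 T)
          (FractionRing 𝒪) ≃ₐ[FractionRing 𝒪] _).injective h
    have h2 : Function.Injective ((Algebra.ofId 𝒪 (FractionRing 𝒪)).mapMatrix
        (m := Module.Free.ChooseBasisIndex 𝒪 T)) := by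
      intro M M' hM
      ext i j
      have := congrFun (congrFun hM i) j
      exact IsFractionRing.injective 𝒪 (FractionRing 𝒪) this
    exact h2 h1
  -- the generators act semisimply
  have hgen : ∀ y : 𝕋, (Λ (π y)).IsSemisimple := by
    intro y
    obtain ⟨G, d, hd, hsep, h0⟩ := cr_exists_separable 𝕋 y
    have hsepK : ((G.map (Int.castRingHom ℚ)).map (algebraMap ℚ (FractionRing 𝒪))).Separable :=
      hsep.map
    have hmap : (G.map (Int.castRingHom ℚ)).map (algebraMap ℚ (FractionRing 𝒪)) =
        G.map (Int.castRingHom (FractionRing 𝒪)) := by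
      rw [Polynomial.map_map]
      congr 1
      exact RingHom.ext_int _ _
    rw [hmap] at hsepK
    refine Module.End.isSemisimple_of_squarefree_aeval_eq_zero hsepK.squarefree ?_
    -- `aeval (Λ (π y)) G = Λ (π (aeval y G))`
    have h1 : aeval (Λ (π y)) (G.map (Int.castRingHom (FractionRing 𝒪))) =
        (Λ : T →+* _).comp π (aeval y G) := by
      rw [aeval_def, eval₂_map, aeval_def, hom_eval₂]
      congr 1
      exact RingHom.ext_int _ _
    have h2' : d • aeval (Λ (π y)) (G.map (Int.castRingHom (FractionRing 𝒪))) = 0 := by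
      rw [h1, ← map_zsmul, h0, map_zero]
    have h2 : (d : FractionRing 𝒪) • aeval (Λ (π y)) (G.map (Int.castRingHom (FractionRing 𝒪)))
        = 0 := by
      exact (Int.cast_smul_eq_zsmul (FractionRing 𝒪) d _).trans h2'
    rcases smul_eq_zero.mp h2 with h3 | h3
    · exact absurd (Int.cast_eq_zero.mp h3) hd
    · exact h3
  -- every element acts semisimply
  have hall : ∀ x : T, (Λ x).IsSemisimple := by
    intro x
    have hx : x ∈ Algebra.adjoin 𝒪 (Set.range π) := by
      rw [hπ]
      exact Algebra.mem_top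
    induction hx using Algebra.adjoin_induction with
    | mem x hx =>
      obtain ⟨y, rfl⟩ := hx
      exact hgen y
    | algebraMap r =>
      rw [AlgHom.commutes, IsScalarTower.algebraMap_apply 𝒪 (FractionRing 𝒪),
        Algebra.algebraMap_eq_smul_one]
      exact Module.End.IsSemisimple_smul _ Module.End.isSemisimple_id
    | add x x' _ _ hx hx' =>
      rw [map_add]
      exact Module.End.IsSemisimple.add_of_commute ((Commute.all x x').map Λ) hx hx'
    | mul x x' _ _ hx hx' =>
      rw [map_mul]
      exact Module.End.IsSemisimple.mul_of_commute ((Commute.all x x').map Λ) hx hx'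
  -- conclusion
  refine ⟨fun x hx => ?_⟩
  apply hΛinj
  rw [map_zero]
  exact Module.End.eq_zero_of_isNilpotent_isSemisimple (hx.map Λ) (hall x)

end Fermat.Agent.H65
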